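import Mathlib

set_option autoImplicit false
set_option linter.style.haveILetI false
set_option linter.unusedSectionVars false

namespace Fermat.Agent.S53.GI

open scoped Pointwise

/-- The image of `𝔪 ^ j` in `Q / 𝔪 ^ (j+1)` has at most `q ^ (number of generators of 𝔪 ^ j)`
elements. -/
theorem card_map_pow_le {Q : Type} [CommRing Q] (𝔪 : Ideal Q) (t : Finset Q)
    (ht : Ideal.span (t : Set Q) = 𝔪) [Finite (Q ⧸ 𝔪)] (j : ℕ) :
    Finite (Submodule.map (𝔪 ^ (j + 1)).mkQ (𝔪 ^ j)) ∧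
      Nat.card (Submodule.map (𝔪 ^ (j + 1)).mkQ (𝔪 ^ j)) ≤ Nat.card (Q ⧸ 𝔪) ^ (t.card ^ j) := by
  classical
  have hq : 0 < Nat.card (Q ⧸ 𝔪) := Nat.card_pos
  have hspan : 𝔪 ^ j = Ideal.span ((t ^ j : Finset Q) : Set Q) := by
    rw [Finset.coe_pow, ← ht]
    exact Submodule.span_pow (R := Q) (t : Set Q) j
  let F : ((t ^ j : Finset Q) → Q ⧸ 𝔪) → Q ⧸ 𝔪 ^ (j + 1) := fun c =>
    Ideal.Quotient.mk _ (∑ a : (t ^ j : Finset Q), Quotient.out (c a) * (a : Q))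
  have hsub : ((Submodule.map (𝔪 ^ (j + 1)).mkQ (𝔪 ^ j) : Submodule Q (Q ⧸ 𝔪 ^ (j + 1))) :
      Set (Q ⧸ 𝔪 ^ (j + 1))) ⊆ Set.range F := by
    rintro _ ⟨x, hx, rfl⟩
    have hx' : x ∈ Ideal.span ((t ^ j : Finset Q) : Set Q) := hspan ▸ hx
    obtain ⟨f, -, hf⟩ := Submodule.mem_span_finset.mp hx'
    refine ⟨fun a => Ideal.Quotient.mk 𝔪 (f a), ?_⟩
    show Ideal.Quotient.mk _ _ = Ideal.Quotient.mk _ x
    rw [Ideal.Quotient.eq, ← hf, ← Finset.sum_coe_sort (t ^ j) (fun a => f a • a),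
      ← Finset.sum_sub_distrib]
    refine Ideal.sum_mem _ fun a _ => ?_
    rw [smul_eq_mul, ← sub_mul, pow_succ']
    refine Ideal.mul_mem_mul ?_ ?_
    · rw [← Ideal.Quotient.eq]
      exact Quotient.out_eq _
    · rw [hspan]
      exact Ideal.subset_span a.2
  have hfin : (Set.range F).Finite := Set.finite_range F
  refine ⟨hfin.subset hsub, ?_⟩
  calc Nat.card (Submodule.map (𝔪 ^ (j + 1)).mkQ (𝔪 ^ j))
      ≤ Nat.card (Set.range F) := Nat.card_mono hfin hsub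
    _ ≤ Nat.card ((t ^ j : Finset Q) → Q ⧸ 𝔪) :=
        Nat.card_le_card_of_surjective _ Set.rangeFactorization_surjective
    _ = Nat.card (Q ⧸ 𝔪) ^ (t ^ j).card := by
        rw [Nat.card_fun]; congr 1; rw [Nat.card_eq_fintype_card, Fintype.card_coe]
    _ ≤ Nat.card (Q ⧸ 𝔪) ^ (t.card ^ j) := Nat.pow_le_pow_right hq Finset.card_pow_le

/-- If `𝔪` is generated by `t` and `Q / 𝔪` is finite, then `Q / 𝔪 ^ j` is finite with an explicit
bound on its cardinality. -/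
theorem card_quotient_pow_le {Q : Type} [CommRing Q] (𝔪 : Ideal Q) (t : Finset Q)
    (ht : Ideal.span (t : Set Q) = 𝔪) [Finite (Q ⧸ 𝔪)] (j : ℕ) :
    Finite (Q ⧸ 𝔪 ^ j) ∧
      Nat.card (Q ⧸ 𝔪 ^ j) ≤ Nat.card (Q ⧸ 𝔪) ^ (∑ i ∈ Finset.range j, t.card ^ i) := by
  induction j with
  | zero =>
    have : Subsingleton (Q ⧸ 𝔪 ^ 0) := by
      rw [pow_zero, Ideal.one_eq_top]; exact Ideal.Quotient.subsingleton_iff.mpr rfl
    refine ⟨inferInstance, ?_⟩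
    simp
  | succ j ih =>
    obtain ⟨hfin, hcard⟩ := ih
    obtain ⟨hfin', hcard'⟩ := card_map_pow_le 𝔪 t ht j
    have hmul := Submodule.card_quotient_mul_card_quotient (𝔪 ^ j) (𝔪 ^ (j + 1))
      (Ideal.pow_le_pow_right (Nat.le_succ j))
    have hpos1 : 0 < Nat.card (Submodule.map (𝔪 ^ (j + 1)).mkQ (𝔪 ^ j)) := Nat.card_pos
    have hpos2 : 0 < Nat.card (Q ⧸ 𝔪 ^ j) := Nat.card_pos
    have hne : Nat.card (Q ⧸ 𝔪 ^ (j + 1)) ≠ 0 := by
      rw [← hmul]; exact (Nat.mul_pos hpos1 hpos2).ne'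
    refine ⟨Nat.finite_of_card_ne_zero hne, ?_⟩
    rw [← hmul, Finset.sum_range_succ, Nat.pow_add, mul_comm]
    exact Nat.mul_le_mul hcard hcard'

end Fermat.Agent.S53.GI
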