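import Fermat.Agent.S53.GI.Quotients

set_option autoImplicit false
set_option linter.style.haveILetI false
set_option linter.unusedSectionVars false

namespace Fermat.Agent.S53.GI

open IsLocalRing GaloisRep

section Functional

variable {Λ : Type} [CommRing Λ]

/-- Separation of points of `M / I'` by `Λ`-linear functionals with values in `Λ / M`,
for a maximal ideal `M` and an ideal `M ^ 2 ≤ I' ≤ M`. -/
theorem exists_tangent_functional (M : Ideal Λ) [hM : M.IsMaximal] (I' : Ideal Λ)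
    (hsq : M ^ 2 ≤ I') (x : Λ) (hx : x ∈ M) (hxI : x ∉ I') :
    ∃ d : M →ₗ[Λ] (Λ ⧸ M), (∀ y : M, (y : Λ) ∈ I' → d y = 0) ∧ d ⟨x, hx⟩ ≠ 0 := by
  letI : Field (Λ ⧸ M) := Ideal.Quotient.field M
  have hsmul : ∀ (a : Λ) (v : M.Cotangent), Ideal.Quotient.mk M a • v = a • v := by
    intro a v
    exact algebraMap_smul (Λ ⧸ M) a v
  let W : Submodule (Λ ⧸ M) M.Cotangent :=
    { carrier := {v | ∃ y : M, (y : Λ) ∈ I' ∧ M.toCotangent y = v}
      zero_mem' := ⟨0, I'.zero_mem, map_zero _⟩
      add_mem' := by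
        rintro _ _ ⟨y, hy, rfl⟩ ⟨z, hz, rfl⟩
        exact ⟨y + z, I'.add_mem hy hz, map_add _ _ _⟩
      smul_mem' := by
        rintro c _ ⟨y, hy, rfl⟩
        obtain ⟨a, rfl⟩ := Ideal.Quotient.mk_surjective c
        refine ⟨a • y, ?_, ?_⟩
        · exact I'.mul_mem_left a hy
        · rw [map_smul, hsmul] }
  have hxW : M.toCotangent ⟨x, hx⟩ ∉ W := by
    rintro ⟨y, hy, hyx⟩
    rw [Ideal.toCotangent_eq] at hyx
    have h1 : (y : Λ) - x ∈ I' := hsq hyx
    apply hxI
    have : x = (y : Λ) - ((y : Λ) - x) := by ring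
    rw [this]
    exact I'.sub_mem hy h1
  obtain ⟨f, hfx, hfW⟩ := Submodule.exists_dual_map_eq_bot_of_notMem hxW inferInstance
  refine ⟨(f.restrictScalars Λ).comp M.toCotangent, ?_, ?_⟩
  · intro y hy
    have : f (M.toCotangent y) ∈ W.map f := Submodule.mem_map_of_mem ⟨y, hy, rfl⟩
    rw [hfW, Submodule.mem_bot] at this
    exact this
  · exact hfx

end Functional

section TangentHom

variable {𝒪 : Type} [CommRing 𝒪] [IsLocalRing 𝒪] {Λ : Type} [CommRing Λ] [Algebra 𝒪 Λ]
variable (base : Λ →ₐ[𝒪] ResidueField 𝒪)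
variable [Algebra 𝒪 (DualNumber (ResidueField 𝒪))]

/-- A section of the residue map of `𝒪`. -/
noncomputable def resSection (c : ResidueField 𝒪) : 𝒪 :=
  Function.surjInv (residue_surjective (R := 𝒪)) c

theorem residue_resSection (c : ResidueField 𝒪) : residue 𝒪 (resSection c) = c :=
  Function.surjInv_eq _ c

theorem sub_algebraMap_resSection_mem (y : Λ) :
    y - algebraMap 𝒪 Λ (resSection (base y)) ∈ RingHom.ker base := by
  rw [RingHom.mem_ker, map_sub, AlgHom.commutes, ResidueField.algebraMap_eq, residue_resSection,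
    sub_self]

/-- The derivation-like map attached to a functional on `M`. -/
noncomputable def tangentD (d : RingHom.ker base →ₗ[Λ] (Λ ⧸ RingHom.ker base)) (y : Λ) :
    Λ ⧸ RingHom.ker base :=
  d ⟨y - algebraMap 𝒪 Λ (resSection (base y)), sub_algebraMap_resSection_mem base y⟩

variable {base}
variable {d : RingHom.ker base →ₗ[Λ] (Λ ⧸ RingHom.ker base)}
  (hd : ∀ o ∈ maximalIdeal 𝒪, ∀ h : algebraMap 𝒪 Λ o ∈ RingHom.ker base,
    d ⟨algebraMap 𝒪 Λ o, h⟩ = 0)

include hd in
theorem tangentD_eq (y : Λ) (o : 𝒪) (h : y - algebraMap 𝒪 Λ o ∈ RingHom.ker base) :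
    tangentD base d y = d ⟨y - algebraMap 𝒪 Λ o, h⟩ := by
  unfold tangentD
  rw [← sub_eq_zero, ← map_sub]
  have hmem : algebraMap 𝒪 Λ (o - resSection (base y)) ∈ RingHom.ker base := by
    have := (RingHom.ker base).sub_mem (sub_algebraMap_resSection_mem base y) h
    have e : y - algebraMap 𝒪 Λ (resSection (base y)) - (y - algebraMap 𝒪 Λ o) =
        algebraMap 𝒪 Λ (o - resSection (base y)) := by rw [map_sub]; ring
    rwa [e] at this
  have hmem' := (base_algebraMap_mem_ker_iff base _).mp hmem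
  have := hd _ hmem' hmem
  convert this using 2
  apply Subtype.ext
  simp only [AddSubgroupClass.coe_sub, map_sub]
  ring

include hd in
theorem tangentD_of_mem (y : Λ) (h : y ∈ RingHom.ker base) : tangentD base d y = d ⟨y, h⟩ := by
  rw [tangentD_eq hd y 0 (by simpa using h)]
  congr 1
  apply Subtype.ext
  simp

include hd in
theorem tangentD_algebraMap (o : 𝒪) : tangentD base d (algebraMap 𝒪 Λ o) = 0 := by
  rw [tangentD_eq hd _ o (by simp)]
  convert map_zero d using 2
  apply Subtype.ext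
  simp

include hd in
theorem tangentD_add (y z : Λ) :
    tangentD base d (y + z) = tangentD base d y + tangentD base d z := by
  obtain ⟨o, ho⟩ := base_exists_algebraMap_sub_mem base y
  obtain ⟨p, hp⟩ := base_exists_algebraMap_sub_mem base z
  have h : y + z - algebraMap 𝒪 Λ (o + p) ∈ RingHom.ker base := by
    have := (RingHom.ker base).add_mem ho hp
    have e : y - algebraMap 𝒪 Λ o + (z - algebraMap 𝒪 Λ p) = y + z - algebraMap 𝒪 Λ (o + p) := by
      rw [map_add]; ring
    rwa [e] at this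
  rw [tangentD_eq hd _ _ h, tangentD_eq hd _ _ ho, tangentD_eq hd _ _ hp, ← map_add]
  congr 1
  apply Subtype.ext
  simp only [AddMemClass.mk_add_mk, map_add]
  ring

include hd in
theorem tangentD_mul (y z : Λ) :
    tangentD base d (y * z) = Ideal.Quotient.mk _ y * tangentD base d z +
      Ideal.Quotient.mk _ z * tangentD base d y := by
  obtain ⟨o, ho⟩ := base_exists_algebraMap_sub_mem base y
  obtain ⟨p, hp⟩ := base_exists_algebraMap_sub_mem base z
  have h : y * z - algebraMap 𝒪 Λ (o * p) ∈ RingHom.ker base := by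
    have h1 := (RingHom.ker base).mul_mem_left y hp
    have h2 := (RingHom.ker base).mul_mem_left (algebraMap 𝒪 Λ p) ho
    have := (RingHom.ker base).add_mem h1 h2
    have e : y * (z - algebraMap 𝒪 Λ p) + algebraMap 𝒪 Λ p * (y - algebraMap 𝒪 Λ o) =
        y * z - algebraMap 𝒪 Λ (o * p) := by
      rw [map_mul]; ring
    rwa [e] at this
  rw [tangentD_eq hd _ _ h, tangentD_eq hd _ _ ho, tangentD_eq hd _ _ hp]
  have e : (⟨y * z - algebraMap 𝒪 Λ (o * p), h⟩ : RingHom.ker base) =
      y • ⟨z - algebraMap 𝒪 Λ p, hp⟩ + algebraMap 𝒪 Λ p • ⟨y - algebraMap 𝒪 Λ o, ho⟩ := by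
    apply Subtype.ext
    simp only [Submodule.coe_add, Submodule.coe_smul_of_tower, smul_eq_mul, map_mul]
    ring
  rw [e, map_add, map_smul, map_smul]
  have hz : Ideal.Quotient.mk (RingHom.ker base) z =
      Ideal.Quotient.mk (RingHom.ker base) (algebraMap 𝒪 Λ p) := by
    rw [Ideal.Quotient.eq]; exact hp
  rw [hz]
  rfl

end TangentHom

section TangentHom2

variable {𝒪 : Type} [CommRing 𝒪] [IsLocalRing 𝒪] {Λ : Type} [CommRing Λ] [Algebra 𝒪 Λ]
variable {base : Λ →ₐ[𝒪] ResidueField 𝒪}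
variable [Algebra 𝒪 (DualNumber (ResidueField 𝒪))]

/-- The ring map `Λ / M → k` induced by the base point. -/
noncomputable def baseBar (base : Λ →ₐ[𝒪] ResidueField 𝒪) :
    Λ ⧸ RingHom.ker base →+* ResidueField 𝒪 :=
  Ideal.Quotient.lift (RingHom.ker base) (base : Λ →+* ResidueField 𝒪) (fun _ ha => ha)

theorem baseBar_mk (y : Λ) : baseBar base (Ideal.Quotient.mk _ y) = base y := rfl

theorem baseBar_injective : Function.Injective (baseBar base) :=
  RingHom.kerLift_injective (base : Λ →+* ResidueField 𝒪)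

variable {d : RingHom.ker base →ₗ[Λ] (Λ ⧸ RingHom.ker base)}

/-- The tangent vector (a point with values in the dual numbers) attached to a functional. -/
noncomputable def tangentHom
    (halg : algebraMap 𝒪 (DualNumber (ResidueField 𝒪)) =
      (algebraMap (ResidueField 𝒪) (DualNumber (ResidueField 𝒪))).comp
        (algebraMap 𝒪 (ResidueField 𝒪)))
    (hd : ∀ o ∈ maximalIdeal 𝒪, ∀ h : algebraMap 𝒪 Λ o ∈ RingHom.ker base,
      d ⟨algebraMap 𝒪 Λ o, h⟩ = 0) :
    Λ →ₐ[𝒪] DualNumber (ResidueField 𝒪) where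
  toFun y := TrivSqZeroExt.inl (base y) + TrivSqZeroExt.inr (baseBar base (tangentD base d y))
  map_one' := by
    have h1 : tangentD base d 1 = 0 := by
      have := tangentD_algebraMap hd 1
      rwa [map_one] at this
    rw [h1, map_zero, TrivSqZeroExt.inr_zero, add_zero, map_one, TrivSqZeroExt.inl_one]
  map_mul' y z := by
    rw [tangentD_mul hd]
    apply TrivSqZeroExt.ext
    · simp
    · simp only [map_add, map_mul, baseBar_mk, TrivSqZeroExt.snd_add, TrivSqZeroExt.snd_inl,
        TrivSqZeroExt.snd_inr, zero_add, TrivSqZeroExt.snd_mul, TrivSqZeroExt.fst_add,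
        TrivSqZeroExt.fst_inl, TrivSqZeroExt.fst_inr, add_zero, smul_eq_mul,
        MulOpposite.smul_eq_mul_unop, MulOpposite.unop_op]
      ring
  map_zero' := by
    have h1 : tangentD base d 0 = 0 := by
      have := tangentD_algebraMap hd 0
      rwa [map_zero] at this
    rw [h1, map_zero, map_zero, TrivSqZeroExt.inr_zero, TrivSqZeroExt.inl_zero, add_zero]
  map_add' y z := by
    rw [tangentD_add hd, map_add, map_add, TrivSqZeroExt.inl_add, TrivSqZeroExt.inr_add]
    abel
  commutes' o := by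
    rw [tangentD_algebraMap hd, map_zero, TrivSqZeroExt.inr_zero, add_zero, AlgHom.commutes, halg,
      RingHom.comp_apply, TrivSqZeroExt.algebraMap_eq_inl]

end TangentHom2

section TangentHom3

variable {𝒪 : Type} [CommRing 𝒪] [IsLocalRing 𝒪] {Λ : Type} [CommRing Λ] [Algebra 𝒪 Λ]
variable {base : Λ →ₐ[𝒪] ResidueField 𝒪}
variable [Algebra 𝒪 (DualNumber (ResidueField 𝒪))]

/-- First order points separate the elements of `M / I'` for `M ^ 2 + 𝔪_𝒪 Λ ≤ I' ≤ M`. -/
theorem exists_tangent_point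
    (halg : algebraMap 𝒪 (DualNumber (ResidueField 𝒪)) =
      (algebraMap (ResidueField 𝒪) (DualNumber (ResidueField 𝒪))).comp
        (algebraMap 𝒪 (ResidueField 𝒪)))
    (I' : Ideal Λ) (hsq : RingHom.ker base ^ 2 ≤ I')
    (h𝒪 : ∀ o ∈ maximalIdeal 𝒪, algebraMap 𝒪 Λ o ∈ I') (hle : I' ≤ RingHom.ker base)
    (x : Λ) (hx : x ∈ RingHom.ker base) (hxI : x ∉ I') :
    ∃ φ : Λ →ₐ[𝒪] DualNumber (ResidueField 𝒪), I' ≤ RingHom.ker φ ∧ φ x ≠ 0 := by
  haveI := base_ker_isMaximal base
  obtain ⟨d, hdI, hdx⟩ := exists_tangent_functional (RingHom.ker base) I' hsq x hx hxI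
  have hd : ∀ o ∈ maximalIdeal 𝒪, ∀ h : algebraMap 𝒪 Λ o ∈ RingHom.ker base,
      d ⟨algebraMap 𝒪 Λ o, h⟩ = 0 := fun o ho h => hdI _ (h𝒪 o ho)
  refine ⟨tangentHom halg hd, ?_, ?_⟩
  · intro y hy
    have hyM := hle hy
    rw [RingHom.mem_ker]
    show TrivSqZeroExt.inl (base y) + TrivSqZeroExt.inr (baseBar base (tangentD base d y)) = 0
    rw [tangentD_of_mem hd y hyM, hdI _ hy, map_zero, TrivSqZeroExt.inr_zero, add_zero,
      (RingHom.mem_ker).mp hyM, TrivSqZeroExt.inl_zero]
  · intro h0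
    have h1 : TrivSqZeroExt.inl (base x) +
        TrivSqZeroExt.inr (baseBar base (tangentD base d x)) = 0 := h0
    rw [tangentD_of_mem hd x hx] at h1
    have h2 := congrArg TrivSqZeroExt.snd h1
    simp only [TrivSqZeroExt.snd_add, TrivSqZeroExt.snd_inl, TrivSqZeroExt.snd_inr, zero_add,
      TrivSqZeroExt.snd_zero] at h2
    exact hdx (baseBar_injective (by rw [h2, map_zero]))

end TangentHom3

end Fermat.Agent.S53.GI
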