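import Fermat.Agent.S53.GI.Good
import Fermat.Agent.S53.GI.Tangent
import Fermat.Agent.S53.GI.CardBound

set_option autoImplicit false
set_option linter.style.haveILetI false
set_option linter.unusedSectionVars false

namespace Fermat.Agent.S53.GI

open IsLocalRing GaloisRep

section GenBound

variable {𝒪 : Type} [CommRing 𝒪] [IsLocalRing 𝒪] {Λ : Type} [CommRing Λ] [Algebra 𝒪 Λ]
variable {good : ∀ ⦃A : Type⦄ [CommRing A] [IsLocalRing A] [Algebra 𝒪 A], (Λ →ₐ[𝒪] A) → Prop}
variable {base : Λ →ₐ[𝒪] ResidueField 𝒪}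
variable [Algebra 𝒪 (DualNumber (ResidueField 𝒪))]

/-- The intersection of the kernels of all good first order points. -/
noncomputable def tangentKer (good : ∀ ⦃A : Type⦄ [CommRing A] [IsLocalRing A] [Algebra 𝒪 A],
    (Λ →ₐ[𝒪] A) → Prop) (base : Λ →ₐ[𝒪] ResidueField 𝒪) : Ideal Λ :=
  RingHom.ker base ⊓
    ⨅ φ : {f : Λ →ₐ[𝒪] DualNumber (ResidueField 𝒪) // good f},
      RingHom.ker (φ.val : Λ →+* DualNumber (ResidueField 𝒪))

theorem isTestIdeal_tangentKer [Finite (ResidueField 𝒪)] (hg : IsGoodPredicate 𝒪 Λ good)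
    (hbase_unique : ∀ g : Λ →ₐ[𝒪] ResidueField 𝒪, good g → g = base)
    (halg : algebraMap 𝒪 (DualNumber (ResidueField 𝒪)) =
      (algebraMap (ResidueField 𝒪) (DualNumber (ResidueField 𝒪))).comp
        (algebraMap 𝒪 (ResidueField 𝒪)))
    (htan : Finite {f : Λ →ₐ[𝒪] DualNumber (ResidueField 𝒪) // good f}) :
    IsTestIdeal base (tangentKer good base) := by
  classical
  letI := Fintype.ofFinite {f : Λ →ₐ[𝒪] DualNumber (ResidueField 𝒪) // good f}
  have key : ∀ s : Finset {f : Λ →ₐ[𝒪] DualNumber (ResidueField 𝒪) // good f},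
      IsTestIdeal base (RingHom.ker base ⊓
        s.inf fun φ => RingHom.ker (φ.val : Λ →+* DualNumber (ResidueField 𝒪))) := by
    intro s
    induction s using Finset.induction_on with
    | empty =>
      rw [Finset.inf_empty, inf_top_eq]
      exact isTestIdeal_ker_base
    | insert a s _ ih =>
      rw [Finset.inf_insert, ← inf_assoc, inf_comm (RingHom.ker base), inf_assoc]
      refine IsTestIdeal.inf ?_ ih
      exact (isGoodIdeal_ker_of_good hg hbase_unique
        (isArtinianTestAlgebra_dualNumber 𝒪 halg) a.val a.property).test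
  have := key Finset.univ
  rwa [Finset.inf_univ_eq_iInf] at this

theorem tangentKer_le [Finite (ResidueField 𝒪)] (hg : IsGoodPredicate 𝒪 Λ good)
    (halg : algebraMap 𝒪 (DualNumber (ResidueField 𝒪)) =
      (algebraMap (ResidueField 𝒪) (DualNumber (ResidueField 𝒪))).comp
        (algebraMap 𝒪 (ResidueField 𝒪)))
    {I : Ideal Λ} (hI : IsGoodIdeal base good I) :
    tangentKer good base ≤
      I ⊔ RingHom.ker base ^ 2 ⊔ (maximalIdeal 𝒪).map (algebraMap 𝒪 Λ) := by
  intro x hx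
  by_contra hxI
  have hxM : x ∈ RingHom.ker base := hx.1
  have hmapM : (maximalIdeal 𝒪).map (algebraMap 𝒪 Λ) ≤ RingHom.ker base := by
    rw [Ideal.map_le_iff_le_comap]
    intro o ho
    exact (base_algebraMap_mem_ker_iff base o).mpr ho
  obtain ⟨φ, hφ, hφx⟩ := exists_tangent_point halg
    (I ⊔ RingHom.ker base ^ 2 ⊔ (maximalIdeal 𝒪).map (algebraMap 𝒪 Λ))
    (le_sup_of_le_left le_sup_right)
    (fun o ho => Ideal.mem_sup_right (Ideal.mem_map_of_mem _ ho))
    (sup_le (sup_le hI.test.le (Ideal.pow_le_self two_ne_zero)) hmapM) x hxM hxI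
  have hgood : good φ := hI.good_of_le_ker hg (isArtinianTestAlgebra_dualNumber 𝒪 halg) φ
    (le_trans (le_sup_of_le_left le_sup_left) hφ)
  have : x ∈ RingHom.ker (φ : Λ →+* DualNumber (ResidueField 𝒪)) := by
    have h2 : x ∈ ⨅ φ : {f : Λ →ₐ[𝒪] DualNumber (ResidueField 𝒪) // good f},
      RingHom.ker (φ.val : Λ →+* DualNumber (ResidueField 𝒪)) := hx.2
    rw [Ideal.mem_iInf] at h2
    exact h2 ⟨φ, hgood⟩
  exact hφx this

end GenBound

/-- Nakayama for nilpotent ideals. -/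
theorem le_of_le_sup_sq {R : Type*} [CommRing R] (M J : Ideal R) (h : M ≤ J ⊔ M ^ 2) (n : ℕ)
    (hn : M ^ n ≤ J) : M ≤ J := by
  have claim : ∀ j : ℕ, M ≤ J ⊔ M ^ (j + 1) := by
    intro j
    induction j with
    | zero => rw [zero_add, pow_one]; exact le_sup_right
    | succ j ih =>
      refine h.trans (sup_le le_sup_left ?_)
      calc M ^ 2 = M * M := pow_two M
        _ ≤ M * (J ⊔ M ^ (j + 1)) := Ideal.mul_mono_right ih
        _ = M * J ⊔ M * M ^ (j + 1) := Ideal.mul_sup _ _ _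
        _ ≤ J ⊔ M ^ (j + 1 + 1) := by
          refine sup_le_sup Ideal.mul_le_right ?_
          rw [pow_succ' M (j + 1)]
  rcases n with _ | n
  · rw [pow_zero, Ideal.one_eq_top] at hn
    exact le_top.trans hn
  · exact (claim n).trans (sup_le le_rfl hn)

section GenBound2

variable {𝒪 : Type} [CommRing 𝒪] [IsLocalRing 𝒪] {Λ : Type} [CommRing Λ] [Algebra 𝒪 Λ]
variable {good : ∀ ⦃A : Type⦄ [CommRing A] [IsLocalRing A] [Algebra 𝒪 A], (Λ →ₐ[𝒪] A) → Prop}
variable {base : Λ →ₐ[𝒪] ResidueField 𝒪}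
variable [Algebra 𝒪 (DualNumber (ResidueField 𝒪))]

/-- A finite set of elements of `M` generating `M` modulo a test ideal. -/
theorem IsTestIdeal.exists_finset_generators {K : Ideal Λ} (hK : IsTestIdeal base K) :
    ∃ s : Finset Λ, (∀ a ∈ s, a ∈ RingHom.ker base) ∧
      RingHom.ker base ≤ K ⊔ Ideal.span (s : Set Λ) := by
  classical
  haveI := hK.finite
  letI := Fintype.ofFinite (Λ ⧸ K)
  let r : Λ ⧸ K → Λ := fun c =>
    if h : ∃ r ∈ RingHom.ker base, Ideal.Quotient.mk K r = c then h.choose else 0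
  have hr : ∀ c, r c ∈ RingHom.ker base := by
    intro c
    by_cases h : ∃ r ∈ RingHom.ker base, Ideal.Quotient.mk K r = c
    · simp only [r, dif_pos h]; exact h.choose_spec.1
    · simp only [r, dif_neg h]; exact Ideal.zero_mem _
  refine ⟨Finset.univ.image r, ?_, ?_⟩
  · intro a ha
    obtain ⟨c, -, rfl⟩ := Finset.mem_image.mp ha
    exact hr c
  · intro y hy
    have h : ∃ r ∈ RingHom.ker base, Ideal.Quotient.mk K r = Ideal.Quotient.mk K y := ⟨y, hy, rfl⟩
    have hspec : Ideal.Quotient.mk K (r (Ideal.Quotient.mk K y)) = Ideal.Quotient.mk K y := by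
      simp only [r, dif_pos h]; exact h.choose_spec.2
    have hmem : r (Ideal.Quotient.mk K y) ∈ Ideal.span ((Finset.univ.image r : Finset Λ) : Set Λ) :=
      Ideal.subset_span (Finset.mem_coe.mpr (Finset.mem_image_of_mem r (Finset.mem_univ _)))
    have hsub : y - r (Ideal.Quotient.mk K y) ∈ K := by
      rw [← Ideal.Quotient.eq]; exact hspec.symm
    have : y = (y - r (Ideal.Quotient.mk K y)) + r (Ideal.Quotient.mk K y) := by ring
    rw [this]
    exact Ideal.add_mem _ (Ideal.mem_sup_left hsub) (Ideal.mem_sup_right hmem)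

/-- A finite set of elements of `M` which generates `M` modulo every good ideal. -/
theorem exists_uniform_generators [Finite (ResidueField 𝒪)] (hg : IsGoodPredicate 𝒪 Λ good)
    (hbase_unique : ∀ g : Λ →ₐ[𝒪] ResidueField 𝒪, good g → g = base)
    (halg : algebraMap 𝒪 (DualNumber (ResidueField 𝒪)) =
      (algebraMap (ResidueField 𝒪) (DualNumber (ResidueField 𝒪))).comp
        (algebraMap 𝒪 (ResidueField 𝒪)))
    (htan : Finite {f : Λ →ₐ[𝒪] DualNumber (ResidueField 𝒪) // good f})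
    (hfg : (maximalIdeal 𝒪).FG) :
    ∃ s : Finset Λ, (∀ a ∈ s, a ∈ RingHom.ker base) ∧
      ∀ I, IsGoodIdeal base good I → RingHom.ker base ≤ I ⊔ Ideal.span (s : Set Λ) := by
  classical
  obtain ⟨s₁, hs₁M, hs₁⟩ :=
    (isTestIdeal_tangentKer hg hbase_unique halg htan).exists_finset_generators
  obtain ⟨S, hS⟩ := hfg
  refine ⟨s₁ ∪ S.image (algebraMap 𝒪 Λ), ?_, ?_⟩
  · intro a ha
    rcases Finset.mem_union.mp ha with ha | ha
    · exact hs₁M a ha
    · obtain ⟨o, ho, rfl⟩ := Finset.mem_image.mp ha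
      refine (base_algebraMap_mem_ker_iff base o).mpr ?_
      rw [← hS]; exact Ideal.subset_span ho
  · intro I hI
    obtain ⟨n, hn⟩ := hI.test.pow_le
    have hmap : (maximalIdeal 𝒪).map (algebraMap 𝒪 Λ) ≤
        Ideal.span ((s₁ ∪ S.image (algebraMap 𝒪 Λ) : Finset Λ) : Set Λ) := by
      rw [← hS, Ideal.map_span]
      refine Ideal.span_mono ?_
      intro a ha
      obtain ⟨o, ho, rfl⟩ := ha
      exact Finset.mem_coe.mpr (Finset.mem_union_right _ (Finset.mem_image_of_mem _ ho))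
    have hs₁' : Ideal.span (s₁ : Set Λ) ≤
        Ideal.span ((s₁ ∪ S.image (algebraMap 𝒪 Λ) : Finset Λ) : Set Λ) :=
      Ideal.span_mono (by
        intro a ha
        exact Finset.mem_coe.mpr (Finset.mem_union_left _ ha))
    refine le_of_le_sup_sq _ _ ?_ n (hn.trans le_sup_left)
    refine hs₁.trans (sup_le ((tangentKer_le hg halg hI).trans ?_)
      (hs₁'.trans (le_sup_of_le_left le_sup_right)))
    refine sup_le (sup_le (le_sup_of_le_left le_sup_left) le_sup_right) ?_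
    exact hmap.trans (le_sup_of_le_left le_sup_right)

end GenBound2

section CardGood

variable {𝒪 : Type} [CommRing 𝒪] [IsLocalRing 𝒪] {Λ : Type} [CommRing Λ] [Algebra 𝒪 Λ]
variable {base : Λ →ₐ[𝒪] ResidueField 𝒪}

/-- Cardinality bound for the quotient by a test ideal in terms of generators of `M` modulo it. -/
theorem IsTestIdeal.card_le [Finite (ResidueField 𝒪)] {I : Ideal Λ} (hI : IsTestIdeal base I)
    (s : Finset Λ) (hsM : ∀ a ∈ s, a ∈ RingHom.ker base)
    (hs : RingHom.ker base ≤ I ⊔ Ideal.span (s : Set Λ)) (n : ℕ)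
    (hn : RingHom.ker base ^ n ≤ I) :
    Nat.card (Λ ⧸ I) ≤ Nat.card (ResidueField 𝒪) ^ (∑ i ∈ Finset.range n, s.card ^ i) := by
  classical
  haveI := hI.isLocalRing
  haveI := hI.finite
  have hT := hI.isArtinianTestAlgebra
  set 𝔪 : Ideal (Λ ⧸ I) := maximalIdeal (Λ ⧸ I) with h𝔪
  have h𝔪eq : 𝔪 = (RingHom.ker base).map (Ideal.Quotient.mk I) := hI.maximalIdeal_eq
  have hpow : 𝔪 ^ n = ⊥ := (hI.maximalIdeal_pow_eq_bot_iff n).mpr hn
  have hspanM : Ideal.span (s : Set Λ) ≤ RingHom.ker base := Ideal.span_le.mpr hsM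
  have ht : Ideal.span ((s.image (Ideal.Quotient.mk I) : Finset (Λ ⧸ I)) : Set (Λ ⧸ I)) = 𝔪 := by
    rw [Finset.coe_image, ← Ideal.map_span, h𝔪eq]
    apply le_antisymm
    · exact Ideal.map_mono hspanM
    · refine (Ideal.map_mono hs).trans ?_
      rw [Ideal.map_sup, Ideal.map_quotient_self, bot_sup_eq]
  haveI : Finite ((Λ ⧸ I) ⧸ 𝔪) :=
    Finite.of_surjective (Ideal.Quotient.mk 𝔪) Ideal.Quotient.mk_surjective
  obtain ⟨hfin, hcard⟩ := card_quotient_pow_le 𝔪 (s.image (Ideal.Quotient.mk I)) ht n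
  have hq : 0 < Nat.card (ResidueField 𝒪) := Nat.card_pos
  have h1 : Nat.card (Λ ⧸ I) ≤ Nat.card ((Λ ⧸ I) ⧸ 𝔪 ^ n) := by
    refine Nat.card_le_card_of_injective (Ideal.Quotient.mk (𝔪 ^ n)) ?_
    rw [injective_iff_map_eq_zero]
    intro a ha
    rwa [Ideal.Quotient.eq_zero_iff_mem, hpow, Ideal.mem_bot] at ha
  have h2 : Nat.card ((Λ ⧸ I) ⧸ 𝔪) ≤ Nat.card (ResidueField 𝒪) := by
    haveI := hT.isLocalHom
    exact Nat.card_le_card_of_surjective (ResidueField.map (algebraMap 𝒪 (Λ ⧸ I)))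
      (testAlg_residueField_map_bijective hT).2
  have h3 : (s.image (Ideal.Quotient.mk I)).card ≤ s.card := Finset.card_image_le
  calc Nat.card (Λ ⧸ I) ≤ Nat.card ((Λ ⧸ I) ⧸ 𝔪 ^ n) := h1
    _ ≤ Nat.card ((Λ ⧸ I) ⧸ 𝔪) ^
        (∑ i ∈ Finset.range n, (s.image (Ideal.Quotient.mk I)).card ^ i) := hcard
    _ ≤ Nat.card (ResidueField 𝒪) ^
        (∑ i ∈ Finset.range n, (s.image (Ideal.Quotient.mk I)).card ^ i) :=
        Nat.pow_le_pow_left h2 _
    _ ≤ Nat.card (ResidueField 𝒪) ^ (∑ i ∈ Finset.range n, s.card ^ i) :=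
        Nat.pow_le_pow_right hq (Finset.sum_le_sum fun i _ => Nat.pow_le_pow_left h3 i)

end CardGood

end Fermat.Agent.S53.GI
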