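import Fermat.Agent.S53.GI.Quotients

set_option autoImplicit false
set_option linter.style.haveILetI false
set_option linter.unusedSectionVars false

namespace Fermat.Agent.S53.GI

open IsLocalRing GaloisRep

/-- Abstract closure properties of a predicate on points of `Λ` with values in Artinian test
algebras, mirroring `GaloisRep.IsDeformationCondition`. -/
structure IsGoodPredicate (𝒪 : Type) [CommRing 𝒪] [IsLocalRing 𝒪] (Λ : Type) [CommRing Λ]
    [Algebra 𝒪 Λ]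
    (good : ∀ ⦃A : Type⦄ [CommRing A] [IsLocalRing A] [Algebra 𝒪 A], (Λ →ₐ[𝒪] A) → Prop) :
    Prop where
  comp : ∀ ⦃A B : Type⦄ [CommRing A] [IsLocalRing A] [Algebra 𝒪 A]
    [CommRing B] [IsLocalRing B] [Algebra 𝒪 B],
    IsArtinianTestAlgebra 𝒪 A → IsArtinianTestAlgebra 𝒪 B →
    ∀ (φ : A →ₐ[𝒪] B) (f : Λ →ₐ[𝒪] A), good f → good (φ.comp f)
  of_comp_injective : ∀ ⦃A B : Type⦄ [CommRing A] [IsLocalRing A] [Algebra 𝒪 A]
    [CommRing B] [IsLocalRing B] [Algebra 𝒪 B],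
    IsArtinianTestAlgebra 𝒪 A → IsArtinianTestAlgebra 𝒪 B →
    ∀ (φ : A →ₐ[𝒪] B), Function.Injective φ → ∀ (f : Λ →ₐ[𝒪] A), good (φ.comp f) → good f
  of_fibreProduct : ∀ ⦃A B C P : Type⦄ [CommRing A] [IsLocalRing A] [Algebra 𝒪 A]
    [CommRing B] [IsLocalRing B] [Algebra 𝒪 B] [CommRing C] [IsLocalRing C] [Algebra 𝒪 C]
    [CommRing P] [IsLocalRing P] [Algebra 𝒪 P],
    IsArtinianTestAlgebra 𝒪 A → IsArtinianTestAlgebra 𝒪 B → IsArtinianTestAlgebra 𝒪 C →
    IsArtinianTestAlgebra 𝒪 P →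
    ∀ (u : A →ₐ[𝒪] C) (v : B →ₐ[𝒪] C) (pA : P →ₐ[𝒪] A) (pB : P →ₐ[𝒪] B),
      u.comp pA = v.comp pB →
      Function.Injective (fun x => (pA x, pB x)) →
      (∀ a b, u a = v b → ∃ x, pA x = a ∧ pB x = b) →
      ∀ (f : Λ →ₐ[𝒪] P), good (pA.comp f) → good (pB.comp f) → good f

section Good

variable {𝒪 : Type} [CommRing 𝒪] [IsLocalRing 𝒪] {Λ : Type} [CommRing Λ] [Algebra 𝒪 Λ]
variable {good : ∀ ⦃A : Type⦄ [CommRing A] [IsLocalRing A] [Algebra 𝒪 A], (Λ →ₐ[𝒪] A) → Prop}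
variable (base : Λ →ₐ[𝒪] ResidueField 𝒪)

/-- A test ideal whose quotient map is a good point. -/
structure IsGoodIdeal (good : ∀ ⦃A : Type⦄ [CommRing A] [IsLocalRing A] [Algebra 𝒪 A],
    (Λ →ₐ[𝒪] A) → Prop) (I : Ideal Λ) : Prop where
  test : IsTestIdeal base I
  good : @good (Λ ⧸ I) _ test.isLocalRing _ (Ideal.Quotient.mkₐ 𝒪 I)

variable {base}

theorem IsGoodIdeal.mono (hg : IsGoodPredicate 𝒪 Λ good) {I J : Ideal Λ}
    (hI : IsGoodIdeal base good I) (hIJ : I ≤ J) (hJ : J ≤ RingHom.ker base) :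
    IsGoodIdeal base good J := by
  have hJt := hI.test.mono hIJ hJ
  refine ⟨hJt, ?_⟩
  haveI := hI.test.isLocalRing
  haveI := hJt.isLocalRing
  have := hg.comp hI.test.isArtinianTestAlgebra hJt.isArtinianTestAlgebra
    (Ideal.Quotient.factorₐ 𝒪 hIJ) _ hI.good
  exact this

theorem IsGoodIdeal.inf (hg : IsGoodPredicate 𝒪 Λ good) {I J : Ideal Λ}
    (hI : IsGoodIdeal base good I) (hJ : IsGoodIdeal base good J) :
    IsGoodIdeal base good (I ⊓ J) := by
  have hP := hI.test.inf hJ.test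
  have hC := hI.test.sup hJ.test
  refine ⟨hP, ?_⟩
  haveI := hI.test.isLocalRing
  haveI := hJ.test.isLocalRing
  haveI := hP.isLocalRing
  haveI := hC.isLocalRing
  refine hg.of_fibreProduct hI.test.isArtinianTestAlgebra hJ.test.isArtinianTestAlgebra
    hC.isArtinianTestAlgebra hP.isArtinianTestAlgebra
    (Ideal.Quotient.factorₐ 𝒪 (le_sup_left : I ≤ I ⊔ J))
    (Ideal.Quotient.factorₐ 𝒪 (le_sup_right : J ≤ I ⊔ J))
    (Ideal.Quotient.factorₐ 𝒪 (inf_le_left : I ⊓ J ≤ I))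
    (Ideal.Quotient.factorₐ 𝒪 (inf_le_right : I ⊓ J ≤ J)) ?_ ?_ ?_ _ hI.good hJ.good
  · ext x
    obtain ⟨x, rfl⟩ := Ideal.Quotient.mk_surjective x
    rfl
  · intro x y hxy
    obtain ⟨x, rfl⟩ := Ideal.Quotient.mk_surjective x
    obtain ⟨y, rfl⟩ := Ideal.Quotient.mk_surjective y
    simp only [Prod.mk.injEq] at hxy
    have h1 : Ideal.Quotient.mk I x = Ideal.Quotient.mk I y := hxy.1
    have h2 : Ideal.Quotient.mk J x = Ideal.Quotient.mk J y := hxy.2
    rw [Ideal.Quotient.eq] at h1 h2 ⊢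
    exact ⟨h1, h2⟩
  · intro a b hab
    obtain ⟨x, rfl⟩ := Ideal.Quotient.mk_surjective a
    obtain ⟨y, rfl⟩ := Ideal.Quotient.mk_surjective b
    have h1 : Ideal.Quotient.mk (I ⊔ J) x = Ideal.Quotient.mk (I ⊔ J) y := hab
    rw [Ideal.Quotient.eq, Submodule.mem_sup] at h1
    obtain ⟨i, hi, j, hj, hij⟩ := h1
    refine ⟨Ideal.Quotient.mk (I ⊓ J) (x - i), ?_, ?_⟩
    · show Ideal.Quotient.mk I (x - i) = Ideal.Quotient.mk I x
      rw [Ideal.Quotient.eq]
      simpa using I.neg_mem hi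
    · show Ideal.Quotient.mk J (x - i) = Ideal.Quotient.mk J y
      rw [Ideal.Quotient.eq]
      have : x - i - y = j := by linear_combination hij.symm
      rw [this]; exact hj

end Good

end Fermat.Agent.S53.GI

namespace Fermat.Agent.S53.GI

open IsLocalRing GaloisRep

section Good2

variable {𝒪 : Type} [CommRing 𝒪] [IsLocalRing 𝒪] {Λ : Type} [CommRing Λ] [Algebra 𝒪 Λ]
variable {good : ∀ ⦃A : Type⦄ [CommRing A] [IsLocalRing A] [Algebra 𝒪 A], (Λ →ₐ[𝒪] A) → Prop}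
variable {base : Λ →ₐ[𝒪] ResidueField 𝒪}

theorem isGoodIdeal_ker_base [Finite (ResidueField 𝒪)] (hg : IsGoodPredicate 𝒪 Λ good)
    (hbase : good base) : IsGoodIdeal base good (RingHom.ker base) := by
  have ht : IsTestIdeal base (RingHom.ker base) := isTestIdeal_ker_base
  refine ⟨ht, ?_⟩
  haveI := ht.isLocalRing
  refine hg.of_comp_injective ht.isArtinianTestAlgebra (isArtinianTestAlgebra_residueField 𝒪)
    (Ideal.Quotient.liftₐ (RingHom.ker base) base (fun a ha => ha)) ?_ _ ?_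
  · exact RingHom.kerLift_injective (base : Λ →+* ResidueField 𝒪)
  · have : (Ideal.Quotient.liftₐ (RingHom.ker base) base (fun a ha => ha)).comp
        (Ideal.Quotient.mkₐ 𝒪 (RingHom.ker base)) = base := by
      ext x; rfl
    rw [this]; exact hbase

/-- A good point lies over the base point. -/
theorem good_residue_comp (hg : IsGoodPredicate 𝒪 Λ good)
    (hbase_unique : ∀ g : Λ →ₐ[𝒪] ResidueField 𝒪, good g → g = base)
    {A : Type} [CommRing A] [IsLocalRing A] [Algebra 𝒪 A] (hA : IsArtinianTestAlgebra 𝒪 A)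
    (f : Λ →ₐ[𝒪] A) (hf : good f) : (testAlgResidue hA).comp f = base :=
  hbase_unique _ (hg.comp hA (isArtinianTestAlgebra_residueField 𝒪) _ _ hf)

theorem isGoodIdeal_ker_of_good [Finite (ResidueField 𝒪)] (hg : IsGoodPredicate 𝒪 Λ good)
    (hbase_unique : ∀ g : Λ →ₐ[𝒪] ResidueField 𝒪, good g → g = base)
    {A : Type} [CommRing A] [IsLocalRing A] [Algebra 𝒪 A] (hA : IsArtinianTestAlgebra 𝒪 A)
    (f : Λ →ₐ[𝒪] A) (hf : good f) : IsGoodIdeal base good (RingHom.ker f) := by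
  have ht : IsTestIdeal base (RingHom.ker f) :=
    isTestIdeal_ker hA f (good_residue_comp hg hbase_unique hA f hf)
  refine ⟨ht, ?_⟩
  haveI := ht.isLocalRing
  refine hg.of_comp_injective ht.isArtinianTestAlgebra hA
    (Ideal.Quotient.liftₐ (RingHom.ker f) f (fun a ha => ha)) ?_ _ ?_
  · exact RingHom.kerLift_injective (f : Λ →+* A)
  · have : (Ideal.Quotient.liftₐ (RingHom.ker f) f (fun a ha => ha)).comp
        (Ideal.Quotient.mkₐ 𝒪 (RingHom.ker f)) = f := by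
      ext x; rfl
    rw [this]; exact hf

theorem IsGoodIdeal.good_of_le_ker (hg : IsGoodPredicate 𝒪 Λ good) {I : Ideal Λ}
    (hI : IsGoodIdeal base good I)
    {A : Type} [CommRing A] [IsLocalRing A] [Algebra 𝒪 A] (hA : IsArtinianTestAlgebra 𝒪 A)
    (f : Λ →ₐ[𝒪] A) (hf : I ≤ RingHom.ker f) : good f := by
  haveI := hI.test.isLocalRing
  have h1 := hg.comp hI.test.isArtinianTestAlgebra hA
    (Ideal.Quotient.liftₐ I f (fun a ha => hf ha)) _ hI.good
  have : (Ideal.Quotient.liftₐ I f (fun a ha => hf ha)).comp (Ideal.Quotient.mkₐ 𝒪 I) = f := by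
    ext x; rfl
  rwa [this] at h1

end Good2

end Fermat.Agent.S53.GI
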