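import Fermat.Agent.S53.GI
import Fermat.Agent.S53.SliceProps
import Fermat.Agent.S53.SliceTangent
import Fermat.Agent.S53.TowerInput
import Fermat.Agent.S53.LimitRing

set_option autoImplicit false
set_option linter.style.haveILetI false
set_option linter.unusedSectionVars false

namespace Fermat.Agent.S53.GI

open IsLocalRing GaloisRep

section HM3

variable {𝒪 : Type} [CommRing 𝒪] [IsLocalRing 𝒪] (S : SliceData 𝒪)
  (𝒟 : ∀ ⦃A : Type⦄ [CommRing A] [IsLocalRing A] [Algebra 𝒪 A], GaloisRepAdic A → Prop)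

/-- The concrete good predicate in the shape expected by the abstract block. -/
def goodP : ∀ ⦃A : Type⦄ [CommRing A] [IsLocalRing A] [Algebra 𝒪 A], (Lam 𝒪 →ₐ[𝒪] A) → Prop :=
  fun _ _ _ _ f => good S 𝒟 f

theorem isGoodPredicate_goodP (h𝒟 : GaloisRep.IsDeformationCondition 𝒪 𝒟) :
    IsGoodPredicate 𝒪 (Lam 𝒪) (goodP S 𝒟) where
  comp := fun _ _ _ _ _ _ _ _ hA hB φ _ hf => good_comp S 𝒟 h𝒟 hA hB φ hf
  of_comp_injective := fun _ _ _ _ _ _ _ _ hA hB φ hφ _ hf =>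
    good_of_comp_injective S 𝒟 h𝒟 hA hB φ hφ hf
  of_fibreProduct := fun _ _ _ _ _ _ _ _ _ _ _ _ _ _ _ _ hA hB hC hP u v pA pB huv hinj hsurj _
      hxA hxB =>
    good_of_fibreProduct S 𝒟 h𝒟 hA hB hC hP u v pA pB huv hinj hsurj hxA hxB

/-- **M3 for the slice functor**: the tower of least good ideals of `Lam 𝒪`. -/
theorem exists_tower_of_slice [IsNoetherianRing 𝒪] [Finite (ResidueField 𝒪)]
    (h𝒟 : GaloisRep.IsDeformationCondition 𝒪 𝒟)
    {ρbar : ResidualGaloisRep (ResidueField 𝒪)} (hrb : ρbar.IsEquiv S.rb.toResidualGaloisRep)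
    (hbar : 𝒟 (GaloisRepAdic.ofResidualGaloisRep ρbar))
    (hfin : GaloisRep.TangentFinite 𝒪 ρbar 𝒟) :
    ∃ I : ℕ → Ideal (Lam 𝒪), TowerHyp 𝒪 (Lam 𝒪) (baseIdeal S) I ∧ Finite (Lam 𝒪 ⧸ I 1) ∧
      ∀ (n : ℕ) ⦃B : Type⦄ [CommRing B] [IsLocalRing B] [Algebra 𝒪 B],
        GaloisRep.IsArtinianTestAlgebra 𝒪 B → maximalIdeal B ^ (n + 1) = ⊥ →
          ∀ f : Lam 𝒪 →ₐ[𝒪] B, (good S 𝒟 f ↔ I n ≤ RingHom.ker f) := by
  letI := dualNumberAlgebra 𝒪
  have halg : algebraMap 𝒪 (DualNumber (ResidueField 𝒪)) =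
      (algebraMap (ResidueField 𝒪) (DualNumber (ResidueField 𝒪))).comp
        (algebraMap 𝒪 (ResidueField 𝒪)) := rfl
  have htan : Finite {f : Lam 𝒪 →ₐ[𝒪] DualNumber (ResidueField 𝒪) // goodP S 𝒟 f} :=
    finite_good_dualNumber' S 𝒟 hrb hfin halg
  have hfg : (maximalIdeal 𝒪).FG := IsNoetherian.noetherian _
  obtain ⟨I, hI, hpow, hanti, hsup, hGI, -⟩ :=
    exists_goodIdeal_tower (base := basePoint S) (isGoodPredicate_goodP S 𝒟 h𝒟)
      (good_basePoint S 𝒟 h𝒟 hrb hbar) (fun g hg => eq_basePoint_of_good S 𝒟 hg) halg htan hfg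
  refine ⟨I, ?_, (hI 1).test.finite, ?_⟩
  · exact
      { ne_top := baseIdeal_ne_top S
        res_surj := surjective_mk_baseIdeal S
        map_le := map_maximalIdeal_le_baseIdeal S
        le_M := fun n => (hI n).test.le
        pow_le := hpow
        anti := hanti
        le_sup := fun n => (hsup n).le }
  · intro n B _ _ _ hB hn f
    exact hGI n B hB hn f

end HM3

end Fermat.Agent.S53.GI
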