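import Fermat.Agent.S53.GI.GenBound

set_option autoImplicit false
set_option linter.style.haveILetI false
set_option linter.unusedSectionVars false

namespace Fermat.Agent.S53.GI

open IsLocalRing GaloisRep

section Main

variable {𝒪 : Type} [CommRing 𝒪] [IsLocalRing 𝒪] {Λ : Type} [CommRing Λ] [Algebra 𝒪 Λ]
variable {good : ∀ ⦃A : Type⦄ [CommRing A] [IsLocalRing A] [Algebra 𝒪 A], (Λ →ₐ[𝒪] A) → Prop}
variable {base : Λ →ₐ[𝒪] ResidueField 𝒪}

/-- A point over the base point kills `M ^ n` as soon as the `n`-th power of the maximal ideal of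
the target vanishes. -/
theorem ker_base_pow_le_ker {A : Type} [CommRing A] [IsLocalRing A] [Algebra 𝒪 A]
    (hA : IsArtinianTestAlgebra 𝒪 A) (f : Λ →ₐ[𝒪] A)
    (hf : (testAlgResidue hA).comp f = base) (n : ℕ) (hn : maximalIdeal A ^ n = ⊥) :
    RingHom.ker base ^ n ≤ RingHom.ker f := by
  have h1 : (RingHom.ker base).map (f : Λ →+* A) ≤ maximalIdeal A := by
    rw [Ideal.map_le_iff_le_comap]
    intro x hx
    rw [Ideal.mem_comap, ← testAlgResidue_eq_zero_iff hA]
    rw [RingHom.mem_ker, ← hf] at hx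
    exact hx
  have h2 : (RingHom.ker base ^ n).map (f : Λ →+* A) ≤ ⊥ := by
    rw [Ideal.map_pow, ← hn]
    exact Ideal.pow_right_mono h1 n
  intro x hx
  rw [RingHom.mem_ker]
  have := h2 (Ideal.mem_map_of_mem _ hx)
  rwa [Ideal.mem_bot] at this

variable [Algebra 𝒪 (DualNumber (ResidueField 𝒪))]

/-- Among the good ideals containing `M ^ n` there is a least one. -/
theorem exists_least_goodIdeal [Finite (ResidueField 𝒪)] (hg : IsGoodPredicate 𝒪 Λ good)
    (hbase : good base)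
    (hbase_unique : ∀ g : Λ →ₐ[𝒪] ResidueField 𝒪, good g → g = base)
    (halg : algebraMap 𝒪 (DualNumber (ResidueField 𝒪)) =
      (algebraMap (ResidueField 𝒪) (DualNumber (ResidueField 𝒪))).comp
        (algebraMap 𝒪 (ResidueField 𝒪)))
    (htan : Finite {f : Λ →ₐ[𝒪] DualNumber (ResidueField 𝒪) // good f})
    (hfg : (maximalIdeal 𝒪).FG) (n : ℕ) (hn : n ≠ 0) :
    ∃ I, IsGoodIdeal base good I ∧ RingHom.ker base ^ n ≤ I ∧
      ∀ J, IsGoodIdeal base good J → RingHom.ker base ^ n ≤ J → I ≤ J := by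
  obtain ⟨s, hsM, hs⟩ := exists_uniform_generators hg hbase_unique halg htan hfg
  let S : Set ℕ := {c | ∃ I, IsGoodIdeal base good I ∧ RingHom.ker base ^ n ≤ I ∧
    Nat.card (Λ ⧸ I) = c}
  have hne : S.Nonempty :=
    ⟨_, RingHom.ker base, isGoodIdeal_ker_base hg hbase, Ideal.pow_le_self hn, rfl⟩
  have hbdd : BddAbove S := by
    refine ⟨Nat.card (ResidueField 𝒪) ^ (∑ i ∈ Finset.range n, s.card ^ i), ?_⟩
    rintro c ⟨I, hI, hIn, rfl⟩
    exact hI.test.card_le s hsM (hs I hI) n hIn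
  obtain ⟨I, hI, hIn, hIc⟩ := Nat.sSup_mem hne hbdd
  refine ⟨I, hI, hIn, ?_⟩
  intro J hJ hJn
  have hIJ := hI.inf hg hJ
  have hmem : Nat.card (Λ ⧸ (I ⊓ J)) ∈ S := ⟨I ⊓ J, hIJ, le_inf hIn hJn, rfl⟩
  have hle : Nat.card (Λ ⧸ (I ⊓ J)) ≤ Nat.card (Λ ⧸ I) := by
    rw [hIc]; exact le_csSup hbdd hmem
  haveI := hIJ.test.finite
  have hbij := (Ideal.Quotient.factor_surjective (inf_le_left : I ⊓ J ≤ I)).bijective_of_nat_card_le
    hle
  intro x hx
  have h0 : Ideal.Quotient.factor (inf_le_left : I ⊓ J ≤ I) (Ideal.Quotient.mk (I ⊓ J) x) =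
      Ideal.Quotient.factor (inf_le_left : I ⊓ J ≤ I) 0 := by
    rw [Ideal.Quotient.factor_mk, map_zero, Ideal.Quotient.eq_zero_iff_mem]
    exact hx
  have h1 := hbij.1 h0
  rw [Ideal.Quotient.eq_zero_iff_mem] at h1
  exact h1.2

end Main

section Tower

variable {𝒪 : Type} [CommRing 𝒪] [IsLocalRing 𝒪] {Λ : Type} [CommRing Λ] [Algebra 𝒪 Λ]
variable {good : ∀ ⦃A : Type⦄ [CommRing A] [IsLocalRing A] [Algebra 𝒪 A], (Λ →ₐ[𝒪] A) → Prop}
variable {base : Λ →ₐ[𝒪] ResidueField 𝒪}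
variable [Algebra 𝒪 (DualNumber (ResidueField 𝒪))]

/-- **Abstract representability**: for a good predicate with finite tangent space there is a
decreasing sequence of good ideals `I n`, with `I n` the least good ideal containing `M ^ (n+1)`;
`Λ ⧸ I n` represents the good points with values in test algebras whose maximal ideal has
vanishing `(n+1)`-st power. -/
theorem exists_goodIdeal_tower [Finite (ResidueField 𝒪)] (hg : IsGoodPredicate 𝒪 Λ good)
    (hbase : good base)
    (hbase_unique : ∀ g : Λ →ₐ[𝒪] ResidueField 𝒪, good g → g = base)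
    (halg : algebraMap 𝒪 (DualNumber (ResidueField 𝒪)) =
      (algebraMap (ResidueField 𝒪) (DualNumber (ResidueField 𝒪))).comp
        (algebraMap 𝒪 (ResidueField 𝒪)))
    (htan : Finite {f : Λ →ₐ[𝒪] DualNumber (ResidueField 𝒪) // good f})
    (hfg : (maximalIdeal 𝒪).FG) :
    ∃ I : ℕ → Ideal Λ,
      (∀ n, IsGoodIdeal base good (I n)) ∧
      (∀ n, RingHom.ker base ^ (n + 1) ≤ I n) ∧
      (∀ n, I (n + 1) ≤ I n) ∧
      (∀ n, I n = I (n + 1) ⊔ RingHom.ker base ^ (n + 1)) ∧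
      (∀ (n : ℕ) (A : Type) [CommRing A] [IsLocalRing A] [Algebra 𝒪 A],
        IsArtinianTestAlgebra 𝒪 A → maximalIdeal A ^ (n + 1) = ⊥ →
          ∀ f : Λ →ₐ[𝒪] A, good f ↔ I n ≤ RingHom.ker f) ∧
      (∃ s : Finset Λ, (∀ a ∈ s, a ∈ RingHom.ker base) ∧
        ∀ n, RingHom.ker base ≤ I n ⊔ Ideal.span (s : Set Λ)) := by
  have H := fun n : ℕ =>
    exists_least_goodIdeal hg hbase hbase_unique halg htan hfg (n + 1) (Nat.succ_ne_zero n)
  choose I hI hIn hleast using H
  have hmono : ∀ n, I (n + 1) ≤ I n := fun n =>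
    hleast (n + 1) (I n) (hI n) ((Ideal.pow_le_pow_right (Nat.le_succ (n + 1))).trans (hIn n))
  refine ⟨I, hI, hIn, hmono, ?_, ?_, ?_⟩
  · intro n
    apply le_antisymm
    · have hJ : IsGoodIdeal base good (I (n + 1) ⊔ RingHom.ker base ^ (n + 1)) :=
        (hI (n + 1)).mono hg le_sup_left
          (sup_le (hI (n + 1)).test.le (Ideal.pow_le_self (Nat.succ_ne_zero n)))
      exact hleast n _ hJ le_sup_right
    · exact sup_le (hmono n) (hIn n)
  · intro n A _ _ _ hA hpow f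
    constructor
    · intro hf
      have hres := good_residue_comp hg hbase_unique hA f hf
      exact hleast n _ (isGoodIdeal_ker_of_good hg hbase_unique hA f hf)
        (ker_base_pow_le_ker hA f hres (n + 1) hpow)
    · intro hle
      exact (hI n).good_of_le_ker hg hA f hle
  · obtain ⟨s, hsM, hs⟩ := exists_uniform_generators hg hbase_unique halg htan hfg
    exact ⟨s, hsM, fun n => hs (I n) (hI n)⟩

end Tower

end Fermat.Agent.S53.GI
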