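import Fermat.Agent.S53.GI.TestAlgebra

set_option autoImplicit false
set_option linter.style.haveILetI false
set_option linter.unusedSectionVars false

namespace Fermat.Agent.S53.GI

open IsLocalRing GaloisRep

section Quot

variable {𝒪 : Type} [CommRing 𝒪] [IsLocalRing 𝒪] {Λ : Type} [CommRing Λ] [Algebra 𝒪 Λ]
variable (base : Λ →ₐ[𝒪] ResidueField 𝒪)

theorem base_surjective : Function.Surjective base := by
  intro x
  obtain ⟨o, rfl⟩ := residue_surjective x
  exact ⟨algebraMap 𝒪 Λ o, by rw [AlgHom.commutes, ResidueField.algebraMap_eq]⟩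

theorem base_ker_isMaximal : (RingHom.ker base).IsMaximal :=
  RingHom.ker_isMaximal_of_surjective _ (base_surjective base)

theorem base_exists_algebraMap_sub_mem (x : Λ) :
    ∃ o : 𝒪, x - algebraMap 𝒪 Λ o ∈ RingHom.ker base := by
  obtain ⟨o, ho⟩ := residue_surjective (base x)
  refine ⟨o, ?_⟩
  rw [RingHom.mem_ker, map_sub, AlgHom.commutes, ResidueField.algebraMap_eq, ho, sub_self]

theorem base_algebraMap_mem_ker_iff (o : 𝒪) :
    algebraMap 𝒪 Λ o ∈ RingHom.ker base ↔ o ∈ maximalIdeal 𝒪 := by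
  rw [RingHom.mem_ker, AlgHom.commutes, ResidueField.algebraMap_eq, residue_eq_zero_iff]

/-- Ideals `I` of `Λ` with `M ^ n ≤ I ≤ M` and finite quotient, `M` the kernel of the base point. -/
structure IsTestIdeal (I : Ideal Λ) : Prop where
  le : I ≤ RingHom.ker base
  pow_le : ∃ n : ℕ, RingHom.ker base ^ n ≤ I
  finite : Finite (Λ ⧸ I)

variable {base}

theorem IsTestIdeal.isNilpotent_mk {I : Ideal Λ} (hI : IsTestIdeal base I) {x : Λ}
    (hx : x ∈ RingHom.ker base) : IsNilpotent (Ideal.Quotient.mk I x) := by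
  obtain ⟨n, hn⟩ := hI.pow_le
  refine ⟨n, ?_⟩
  rw [← map_pow, Ideal.Quotient.eq_zero_iff_mem]
  exact hn (Ideal.pow_mem_pow hx n)

theorem IsTestIdeal.isUnit_mk_iff {I : Ideal Λ} (hI : IsTestIdeal base I) (x : Λ) :
    IsUnit (Ideal.Quotient.mk I x) ↔ x ∉ RingHom.ker base := by
  have hIne : I ≠ ⊤ := fun h => (base_ker_isMaximal base).ne_top (top_le_iff.mp (h ▸ hI.le))
  haveI : Nontrivial (Λ ⧸ I) := Ideal.Quotient.nontrivial_iff.mpr hIne
  constructor
  · intro hu hx
    exact (hI.isNilpotent_mk hx).not_isUnit hu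
  · intro hx
    obtain ⟨y, z, hz, hyz⟩ := (base_ker_isMaximal base).exists_inv hx
    have h1 : Ideal.Quotient.mk I y * Ideal.Quotient.mk I x =
        1 - Ideal.Quotient.mk I z := by
      rw [← map_mul, ← map_one (Ideal.Quotient.mk I), ← map_sub, ← hyz]; congr 1; ring
    have h2 : IsUnit (1 - Ideal.Quotient.mk I z) :=
      (hI.isNilpotent_mk hz).isUnit_one_sub
    exact isUnit_of_mul_isUnit_right (h1 ▸ h2)

theorem IsTestIdeal.isLocalRing {I : Ideal Λ} (hI : IsTestIdeal base I) : IsLocalRing (Λ ⧸ I) := by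
  have hIne : I ≠ ⊤ := fun h => (base_ker_isMaximal base).ne_top (top_le_iff.mp (h ▸ hI.le))
  haveI : Nontrivial (Λ ⧸ I) := Ideal.Quotient.nontrivial_iff.mpr hIne
  refine IsLocalRing.of_nonunits_add ?_
  intro a b ha hb
  obtain ⟨x, rfl⟩ := Ideal.Quotient.mk_surjective a
  obtain ⟨y, rfl⟩ := Ideal.Quotient.mk_surjective b
  rw [mem_nonunits_iff, hI.isUnit_mk_iff, not_not] at ha hb
  rw [mem_nonunits_iff, ← map_add, hI.isUnit_mk_iff, not_not]
  exact Ideal.add_mem _ ha hb

theorem IsTestIdeal.maximalIdeal_eq {I : Ideal Λ} (hI : IsTestIdeal base I) :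
    @maximalIdeal (Λ ⧸ I) _ hI.isLocalRing = (RingHom.ker base).map (Ideal.Quotient.mk I) := by
  haveI := hI.isLocalRing
  ext a
  obtain ⟨x, rfl⟩ := Ideal.Quotient.mk_surjective a
  rw [mem_maximalIdeal, mem_nonunits_iff, hI.isUnit_mk_iff, not_not,
    Ideal.mem_map_iff_of_surjective _ Ideal.Quotient.mk_surjective]
  constructor
  · intro hx; exact ⟨x, hx, rfl⟩
  · rintro ⟨y, hy, hxy⟩
    have : x - y ∈ I := by
      rw [← Ideal.Quotient.eq_zero_iff_mem, map_sub, hxy, sub_self]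
    have : x = y + (x - y) := by ring
    rw [this]
    exact Ideal.add_mem _ hy (hI.le ‹_›)

theorem IsTestIdeal.maximalIdeal_pow_eq_bot_iff {I : Ideal Λ} (hI : IsTestIdeal base I) (n : ℕ) :
    @maximalIdeal (Λ ⧸ I) _ hI.isLocalRing ^ n = ⊥ ↔ RingHom.ker base ^ n ≤ I := by
  rw [hI.maximalIdeal_eq, ← Ideal.map_pow, Ideal.map_eq_bot_iff_le_ker, Ideal.mk_ker]

theorem IsTestIdeal.isArtinianTestAlgebra {I : Ideal Λ} (hI : IsTestIdeal base I) :
    @IsArtinianTestAlgebra 𝒪 _ (Λ ⧸ I) _ hI.isLocalRing _ := by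
  haveI := hI.isLocalRing
  refine ⟨⟨?_⟩, ?_, ?_⟩
  · intro o ho
    by_contra hno
    have h1 : algebraMap 𝒪 Λ o ∈ RingHom.ker base :=
      (base_algebraMap_mem_ker_iff base o).mpr (by rwa [mem_maximalIdeal, mem_nonunits_iff])
    have h2 : algebraMap 𝒪 (Λ ⧸ I) o = Ideal.Quotient.mk I (algebraMap 𝒪 Λ o) := rfl
    rw [h2, hI.isUnit_mk_iff] at ho
    exact ho h1
  · intro x
    obtain ⟨y, rfl⟩ := residue_surjective x
    obtain ⟨y, rfl⟩ := Ideal.Quotient.mk_surjective y
    obtain ⟨o, ho⟩ := base_exists_algebraMap_sub_mem base y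
    refine ⟨o, ?_⟩
    rw [Function.comp_apply, ← sub_eq_zero, ← map_sub, residue_eq_zero_iff]
    have h2 : algebraMap 𝒪 (Λ ⧸ I) o = Ideal.Quotient.mk I (algebraMap 𝒪 Λ o) := rfl
    rw [h2, ← map_sub, mem_maximalIdeal, mem_nonunits_iff, hI.isUnit_mk_iff, not_not]
    have : algebraMap 𝒪 Λ o - y = -(y - algebraMap 𝒪 Λ o) := by ring
    rw [this]
    exact Ideal.neg_mem_iff _ |>.mpr ho
  · haveI := hI.finite
    infer_instance

theorem IsTestIdeal.testAlgResidue_mk {I : Ideal Λ} (hI : IsTestIdeal base I) (x : Λ) :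
    @testAlgResidue 𝒪 _ _ (Λ ⧸ I) _ hI.isLocalRing _ hI.isArtinianTestAlgebra
      (Ideal.Quotient.mk I x) = base x := by
  haveI := hI.isLocalRing
  have h := testAlg_algHom_residueField_eq hI.isArtinianTestAlgebra
    (Ideal.Quotient.liftₐ I base (fun a ha => hI.le ha))
  rw [← h]
  rfl

end Quot

section Quot2

variable {𝒪 : Type} [CommRing 𝒪] [IsLocalRing 𝒪] {Λ : Type} [CommRing Λ] [Algebra 𝒪 Λ]
variable {base : Λ →ₐ[𝒪] ResidueField 𝒪}

theorem IsTestIdeal.mono {I J : Ideal Λ} (hI : IsTestIdeal base I) (hIJ : I ≤ J)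
    (hJ : J ≤ RingHom.ker base) : IsTestIdeal base J where
  le := hJ
  pow_le := by
    obtain ⟨n, hn⟩ := hI.pow_le
    exact ⟨n, hn.trans hIJ⟩
  finite := by
    haveI := hI.finite
    exact Finite.of_surjective _ (Ideal.Quotient.factor_surjective hIJ)

theorem IsTestIdeal.inf {I J : Ideal Λ} (hI : IsTestIdeal base I) (hJ : IsTestIdeal base J) :
    IsTestIdeal base (I ⊓ J) where
  le := inf_le_left.trans hI.le
  pow_le := by
    obtain ⟨n, hn⟩ := hI.pow_le
    obtain ⟨m, hm⟩ := hJ.pow_le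
    refine ⟨max n m, le_inf ?_ ?_⟩
    · exact (Ideal.pow_le_pow_right (le_max_left n m)).trans hn
    · exact (Ideal.pow_le_pow_right (le_max_right n m)).trans hm
  finite := by
    haveI := hI.finite
    haveI := hJ.finite
    refine Finite.of_injective
      (fun x : Λ ⧸ (I ⊓ J) => (Ideal.Quotient.factor (inf_le_left : I ⊓ J ≤ I) x,
        Ideal.Quotient.factor (inf_le_right : I ⊓ J ≤ J) x)) ?_
    intro x y hxy
    obtain ⟨x, rfl⟩ := Ideal.Quotient.mk_surjective x
    obtain ⟨y, rfl⟩ := Ideal.Quotient.mk_surjective y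
    simp only [Prod.mk.injEq, Ideal.Quotient.factor_mk] at hxy
    rw [Ideal.Quotient.eq] at hxy ⊢
    rw [Ideal.Quotient.eq] at hxy
    exact ⟨hxy.1, hxy.2⟩

theorem IsTestIdeal.sup {I J : Ideal Λ} (hI : IsTestIdeal base I) (hJ : IsTestIdeal base J) :
    IsTestIdeal base (I ⊔ J) :=
  hI.mono le_sup_left (sup_le hI.le hJ.le)

theorem isTestIdeal_ker_base [Finite (ResidueField 𝒪)] : IsTestIdeal base (RingHom.ker base) where
  le := le_rfl
  pow_le := ⟨1, by rw [pow_one]⟩
  finite :=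
    Finite.of_equiv _ (RingHom.quotientKerEquivOfSurjective (base_surjective base)).symm.toEquiv

/-- The kernel of a point with values in a test algebra, lying over the base point. -/
theorem isTestIdeal_ker [Finite (ResidueField 𝒪)] {A : Type} [CommRing A] [IsLocalRing A]
    [Algebra 𝒪 A] (hA : IsArtinianTestAlgebra 𝒪 A) (f : Λ →ₐ[𝒪] A)
    (hf : (testAlgResidue hA).comp f = base) : IsTestIdeal base (RingHom.ker f) where
  le := by
    intro x hx
    rw [RingHom.mem_ker] at hx ⊢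
    rw [← hf, AlgHom.comp_apply, hx, map_zero]
  pow_le := by
    obtain ⟨n, hn⟩ := testAlg_exists_pow_eq_bot hA
    refine ⟨n, ?_⟩
    have h1 : (RingHom.ker base).map (f : Λ →+* A) ≤ maximalIdeal A := by
      rw [Ideal.map_le_iff_le_comap]
      intro x hx
      rw [Ideal.mem_comap, ← testAlgResidue_eq_zero_iff hA]
      rw [RingHom.mem_ker, ← hf] at hx
      exact hx
    have h2 : (RingHom.ker base ^ n).map (f : Λ →+* A) ≤ ⊥ := by
      rw [Ideal.map_pow, ← hn]
      exact Ideal.pow_right_mono h1 n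
    intro x hx
    rw [RingHom.mem_ker]
    have := h2 (Ideal.mem_map_of_mem _ hx)
    rwa [Ideal.mem_bot] at this
  finite := by
    haveI := testAlg_finite hA
    exact Finite.of_injective _ (RingHom.kerLift_injective (f : Λ →+* A))

end Quot2

end Fermat.Agent.S53.GI
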