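import Mathlib
import Fermat.Prelude.Def_GaloisRep_DeformationCondition

set_option autoImplicit false
set_option linter.style.haveILetI false
set_option linter.unusedSectionVars false

namespace Fermat.Agent.S53.GI

open IsLocalRing GaloisRep

/-- A module of finite length over a ring all of whose residue fields are finite is finite. -/
theorem finite_of_isFiniteLength {A : Type*} [CommRing A]
    (hA : ∀ m : Ideal A, m.IsMaximal → Finite (A ⧸ m))
    {M : Type*} [AddCommGroup M] [Module A M] (h : IsFiniteLength A M) : Finite M := by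
  induction h with
  | of_subsingleton => infer_instance
  | @of_simple_quotient M _ _ N hs _ ih =>
    obtain ⟨m, hm, ⟨e⟩⟩ := isSimpleModule_iff_quot_maximal.mp hs
    have : Finite (A ⧸ m) := hA m hm
    have h1 : Finite (M ⧸ N) := Finite.of_equiv _ e.symm.toEquiv
    have h2 : Finite N := ih
    have h3 : Finite (M ⧸ N.toAddSubgroup) := h1
    have h4 : Finite N.toAddSubgroup := h2
    exact Finite.of_addSubgroup_quotient N.toAddSubgroup

section TestAlg

variable {𝒪 : Type} [CommRing 𝒪] [IsLocalRing 𝒪]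
variable {A : Type} [CommRing A] [IsLocalRing A] [Algebra 𝒪 A]

/-- Every element of a test algebra is congruent to a constant modulo the maximal ideal. -/
theorem testAlg_exists_algebraMap_sub_mem (h : IsArtinianTestAlgebra 𝒪 A) (a : A) :
    ∃ o : 𝒪, a - algebraMap 𝒪 A o ∈ maximalIdeal A := by
  obtain ⟨o, ho⟩ := h.residue_surjective (residue A a)
  refine ⟨o, ?_⟩
  rw [← residue_eq_zero_iff, map_sub, sub_eq_zero]
  exact ho.symm

theorem testAlg_algebraMap_mem_maximalIdeal_iff (h : IsArtinianTestAlgebra 𝒪 A) (o : 𝒪) :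
    algebraMap 𝒪 A o ∈ maximalIdeal A ↔ o ∈ maximalIdeal 𝒪 := by
  haveI := h.isLocalHom
  rw [mem_maximalIdeal, mem_maximalIdeal, mem_nonunits_iff, mem_nonunits_iff, not_iff_not]
  exact isUnit_map_iff (algebraMap 𝒪 A) o

theorem testAlg_exists_pow_eq_bot (h : IsArtinianTestAlgebra 𝒪 A) :
    ∃ n : ℕ, maximalIdeal A ^ n = ⊥ := by
  haveI := h.isArtinian
  obtain ⟨n, hn⟩ := IsArtinianRing.isNilpotent_jacobson_bot (R := A)
  exact ⟨n, by rwa [IsLocalRing.jacobson_eq_maximalIdeal ⊥ bot_ne_top] at hn⟩

theorem testAlg_finite [Finite (ResidueField 𝒪)] (h : IsArtinianTestAlgebra 𝒪 A) : Finite A := by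
  haveI := h.isArtinian
  haveI := h.isLocalHom
  have hres : Finite (ResidueField A) := by
    refine Finite.of_surjective (ResidueField.map (algebraMap 𝒪 A)) ?_
    intro x
    obtain ⟨o, ho⟩ := h.residue_surjective x
    exact ⟨residue 𝒪 o, by rw [ResidueField.map_residue]; exact ho⟩
  refine finite_of_isFiniteLength (A := A) (M := A) ?_
    (isFiniteLength_iff_isNoetherian_isArtinian.mpr ⟨inferInstance, inferInstance⟩)
  intro m hm
  rw [IsLocalRing.eq_maximalIdeal hm]
  exact hres

end TestAlg

section TestAlg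

variable {𝒪 : Type} [CommRing 𝒪] [IsLocalRing 𝒪]
variable {A : Type} [CommRing A] [IsLocalRing A] [Algebra 𝒪 A]

/-- The comparison of residue fields of a test algebra is bijective. -/
theorem testAlg_residueField_map_bijective (h : IsArtinianTestAlgebra 𝒪 A) :
    Function.Bijective (@ResidueField.map 𝒪 A _ _ _ _ (algebraMap 𝒪 A) h.isLocalHom) := by
  haveI := h.isLocalHom
  refine ⟨(ResidueField.map (algebraMap 𝒪 A)).injective, ?_⟩
  intro x
  obtain ⟨o, ho⟩ := h.residue_surjective x
  exact ⟨residue 𝒪 o, by rw [ResidueField.map_residue]; exact ho⟩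

/-- The residue map of a test algebra, with values in the residue field of `𝒪`. -/
noncomputable def testAlgResidue (h : IsArtinianTestAlgebra 𝒪 A) : A →ₐ[𝒪] ResidueField 𝒪 :=
  haveI := h.isLocalHom
  { toRingHom := ((RingEquiv.ofBijective (ResidueField.map (algebraMap 𝒪 A))
        (testAlg_residueField_map_bijective h)).symm : ResidueField A →+* ResidueField 𝒪).comp
        (residue A)
    commutes' := fun o => by
      show (RingEquiv.ofBijective (ResidueField.map (algebraMap 𝒪 A))
        (testAlg_residueField_map_bijective h)).symm (residue A (algebraMap 𝒪 A o)) =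
          algebraMap 𝒪 (ResidueField 𝒪) o
      rw [RingEquiv.symm_apply_eq, RingEquiv.ofBijective_apply, ResidueField.algebraMap_eq,
        ResidueField.map_residue] }

theorem testAlgResidue_eq_zero_iff (h : IsArtinianTestAlgebra 𝒪 A) (a : A) :
    testAlgResidue h a = 0 ↔ a ∈ maximalIdeal A := by
  haveI := h.isLocalHom
  show (RingEquiv.ofBijective (ResidueField.map (algebraMap 𝒪 A))
        (testAlg_residueField_map_bijective h)).symm (residue A a) = 0 ↔ _
  rw [RingEquiv.map_eq_zero_iff, residue_eq_zero_iff]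

theorem testAlgResidue_algebraMap (h : IsArtinianTestAlgebra 𝒪 A) (o : 𝒪) :
    testAlgResidue h (algebraMap 𝒪 A o) = residue 𝒪 o := by
  rw [AlgHom.commutes, ResidueField.algebraMap_eq]

/-- Any `𝒪`-algebra map from a test algebra to the residue field of `𝒪` is the residue map. -/
theorem testAlg_algHom_residueField_eq (h : IsArtinianTestAlgebra 𝒪 A)
    (g : A →ₐ[𝒪] ResidueField 𝒪) : g = testAlgResidue h := by
  have key : ∀ x ∈ maximalIdeal A, ∀ g' : A →ₐ[𝒪] ResidueField 𝒪, g' x = 0 := by
    intro x hx g'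
    obtain ⟨n, hn⟩ := testAlg_exists_pow_eq_bot h
    have hxn : x ^ n = 0 := by
      have : x ^ n ∈ maximalIdeal A ^ n := Ideal.pow_mem_pow hx n
      rwa [hn, Ideal.mem_bot] at this
    have : g' x ^ n = 0 := by rw [← map_pow, hxn, map_zero]
    exact IsNilpotent.eq_zero ⟨n, this⟩
  ext a
  obtain ⟨o, ho⟩ := testAlg_exists_algebraMap_sub_mem h a
  have h1 := key _ ho g
  have h2 := key _ ho (testAlgResidue h)
  rw [map_sub, sub_eq_zero] at h1 h2
  rw [h1, h2, AlgHom.commutes, AlgHom.commutes]

end TestAlg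

section

variable (𝒪 : Type) [CommRing 𝒪] [IsLocalRing 𝒪]

theorem isArtinianTestAlgebra_residueField : IsArtinianTestAlgebra 𝒪 (ResidueField 𝒪) where
  isLocalHom := by
    rw [ResidueField.algebraMap_eq]; infer_instance
  residue_surjective := by
    intro x
    obtain ⟨y, rfl⟩ := residue_surjective x
    obtain ⟨o, rfl⟩ := residue_surjective y
    exact ⟨o, by simp [ResidueField.algebraMap_eq]⟩
  isArtinian := inferInstance

variable [Algebra 𝒪 (DualNumber (ResidueField 𝒪))]

theorem isArtinianTestAlgebra_dualNumber [Finite (ResidueField 𝒪)]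
    (halg : algebraMap 𝒪 (DualNumber (ResidueField 𝒪)) =
      (algebraMap (ResidueField 𝒪) (DualNumber (ResidueField 𝒪))).comp
        (algebraMap 𝒪 (ResidueField 𝒪))) :
    IsArtinianTestAlgebra 𝒪 (DualNumber (ResidueField 𝒪)) where
  isLocalHom := by
    constructor
    intro o ho
    rw [halg, RingHom.comp_apply, TrivSqZeroExt.algebraMap_eq_inl,
      TrivSqZeroExt.isUnit_iff_isUnit_fst, TrivSqZeroExt.fst_inl, ResidueField.algebraMap_eq] at ho
    exact (isUnit_map_iff (residue 𝒪) o).mp ho
  residue_surjective := by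
    intro x
    obtain ⟨y, rfl⟩ := residue_surjective x
    obtain ⟨o, ho⟩ := residue_surjective (R := 𝒪) y.fst
    refine ⟨o, ?_⟩
    rw [Function.comp_apply, ← sub_eq_zero, ← map_sub, residue_eq_zero_iff, mem_maximalIdeal,
      mem_nonunits_iff, TrivSqZeroExt.isUnit_iff_isUnit_fst, halg, RingHom.comp_apply,
      TrivSqZeroExt.algebraMap_eq_inl, TrivSqZeroExt.fst_sub, TrivSqZeroExt.fst_inl,
      ResidueField.algebraMap_eq, ho, sub_self]
    exact not_isUnit_zero
  isArtinian := by
    haveI : Finite (DualNumber (ResidueField 𝒪)) :=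
      inferInstanceAs (Finite (ResidueField 𝒪 × ResidueField 𝒪))
    infer_instance

end

section Hom

variable {𝒪 : Type} [CommRing 𝒪] [IsLocalRing 𝒪]
variable {A : Type} [CommRing A] [IsLocalRing A] [Algebra 𝒪 A]
variable {B : Type} [CommRing B] [IsLocalRing B] [Algebra 𝒪 B]

/-- An algebra map out of a test algebra sends the maximal ideal into the maximal ideal. -/
theorem testAlg_map_mem_maximalIdeal (hA : IsArtinianTestAlgebra 𝒪 A) (φ : A →ₐ[𝒪] B) {a : A}
    (ha : a ∈ maximalIdeal A) : φ a ∈ maximalIdeal B := by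
  obtain ⟨n, hn⟩ := testAlg_exists_pow_eq_bot hA
  have hxn : a ^ n = 0 := by
    have : a ^ n ∈ maximalIdeal A ^ n := Ideal.pow_mem_pow ha n
    rwa [hn, Ideal.mem_bot] at this
  rw [mem_maximalIdeal, mem_nonunits_iff]
  intro hu
  have h0 : φ a ^ n = 0 := by rw [← map_pow, hxn, map_zero]
  have : IsUnit (0 : B) := h0 ▸ hu.pow n
  exact not_isUnit_zero this

theorem testAlg_isLocalHom (hA : IsArtinianTestAlgebra 𝒪 A) (φ : A →ₐ[𝒪] B) :
    IsLocalHom (φ : A →+* B) := by
  constructor
  intro a ha
  by_contra hna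
  have := testAlg_map_mem_maximalIdeal hA φ (a := a) (by rwa [mem_maximalIdeal, mem_nonunits_iff])
  rw [mem_maximalIdeal, mem_nonunits_iff] at this
  exact this ha

theorem testAlgResidue_comp (hA : IsArtinianTestAlgebra 𝒪 A) (hB : IsArtinianTestAlgebra 𝒪 B)
    (φ : A →ₐ[𝒪] B) : (testAlgResidue hB).comp φ = testAlgResidue hA :=
  testAlg_algHom_residueField_eq hA _

end Hom

end Fermat.Agent.S53.GI
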